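import Fermat.Agent.PadicZetaResidue.Trivial
import Fermat.Agent.Root.SummaryIrregularPrimes

/-!
# The numerators and denominators of `B_n`

For even `n` the denominator is squarefree with the primes `ℓ`, `ℓ - 1 ∣ n`, the sign is
`(-1)^(n/2+1)`, and if `q - 1` and `q^a` divide `n` and `n'`, whose Bernoulli numbers have the same
denominator, then the numerators agree modulo `q^a`.
-/

set_option autoImplicit false
set_option linter.unusedSectionVars false
set_option linter.style.haveILetI false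

noncomputable section

open Finset
open scoped Nat
open FA.OrderTheta

namespace FA.IrregularResidues

/-- The primes of the denominator. -/
theorem dvd_den_iff {ℓ : ℕ} (hℓ : ℓ.Prime) {n : ℕ} (hn : 0 < n) (hev : Even n) :
    ℓ ∣ (bernoulli n).den ↔ ℓ - 1 ∣ n := by
  haveI : Fact ℓ.Prime := ⟨hℓ⟩
  obtain ⟨k, rfl⟩ : ∃ k, n = 2 * k := hev.two_dvd
  refine ⟨fun h => ?_, fun h => not_not.1 (dvd_den_bernoulli (by omega) h)⟩
  by_contra hnd
  obtain ⟨z, hz⟩ := Bernoulli.vonStaudt_clausen k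
  have hB : PIntegral ℓ (bernoulli (2 * k)) := by
    rw [show bernoulli (2 * k) = (z : ℚ) + ((-1 : ℤ) : ℚ) *
      (∑ q ∈ range (2 * k + 2) with q.Prime ∧ (q - 1) ∣ 2 * k, (1 : ℚ) / q) by
        rw [hz]; push_cast; ring]
    refine (PIntegral.intCast z).add ((PIntegral.intCast _).mul (PIntegral.sum fun q hq => ?_))
    obtain ⟨-, hqp, hq1⟩ := mem_filter.mp hq
    rw [one_div]
    exact PIntegral.inv_natCast fun hd =>
      hnd (((Nat.prime_dvd_prime_iff_eq hℓ hqp).mp hd) ▸ hq1)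
  exact hB h

/-- It is squarefree. -/
theorem squarefree_den (n : ℕ) : Squarefree (bernoulli n).den := by
  refine Nat.squarefree_iff_prime_squarefree.2 fun ℓ hℓ h => ?_
  haveI : Fact ℓ.Prime := ⟨hℓ⟩
  set B := bernoulli n
  set c := (ℓ : ℚ) * B with hc
  have e : c.num * (B.den : ℤ) = (ℓ : ℤ) * (B.num * c.den) := by
    have h1 : (c.num : ℚ) * (B.den : ℚ) = (ℓ : ℚ) * ((B.num : ℚ) * (c.den : ℚ)) := by
      rw [← Rat.mul_den_eq_num c, ← Rat.mul_den_eq_num B, hc]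
      ring
    exact_mod_cast h1
  obtain ⟨d, hd⟩ := h
  have h2 : (ℓ : ℤ) ∣ B.num * c.den := ⟨c.num * d, mul_left_cancel₀
    (Int.natCast_ne_zero.2 hℓ.ne_zero) (by rw [← e, hd]; push_cast; ring)⟩
  rcases (Nat.prime_iff_prime_int.mp hℓ).dvd_or_dvd h2 with h3 | h3
  · exact hℓ.ne_one (Nat.eq_one_of_dvd_coprimes B.reduced (Int.natCast_dvd.1 h3)
      (hd ▸ (dvd_mul_right ℓ ℓ).trans (dvd_mul_right _ d)))
  · exact pIntegral_mul_bernoulli (p := ℓ) n (Int.natCast_dvd_natCast.1 h3)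

/-- `B_n < 0` for `4 ∣ n`. -/
theorem bernoulli_neg {n : ℕ} (hn : 0 < n) (h4 : 4 ∣ n) : bernoulli n < 0 := by
  obtain ⟨j, rfl⟩ := h4
  have hs := hasSum_zeta_nat (k := 2 * j) (by omega)
  have h1 : (1 : ℝ) ≤ (-1 : ℝ) ^ (2 * j + 1) * (2 : ℝ) ^ (2 * (2 * j) - 1) *
      Real.pi ^ (2 * (2 * j)) * bernoulli (2 * (2 * j)) / (2 * (2 * j))! := by
    refine le_trans ?_ (le_hasSum hs 1 fun i _ => by positivity)
    simp
  rw [(odd_two_mul_add_one j).neg_one_pow, show 2 * (2 * j) = 4 * j by ring] at h1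
  by_contra h
  have h2 : (0 : ℝ) ≤ (bernoulli (4 * j) : ℝ) := by exact_mod_cast not_lt.1 h
  have h3 : 0 ≤ (2 : ℝ) ^ (4 * j - 1) * Real.pi ^ (4 * j) * bernoulli (4 * j) / (4 * j)! := by
    positivity
  rw [neg_one_mul, neg_mul, neg_mul, neg_div] at h1
  linarith

variable {q : ℕ} [hq : Fact q.Prime]

/-- **The congruence**, in `ℂ_q`. -/
theorem norm_bernoulli_sub_le {n : ℕ} (hq1 : q - 1 ∣ n) {a : ℕ} (hqn : q ^ a ∣ n)
    (ha : a + 2 ≤ n) :
    ‖((bernoulli n : ℚ) : ℂ_[q]) - (1 - 1 / (q : ℂ_[q]))‖ ≤ q * ((q : ℝ)⁻¹) ^ a := by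
  obtain ⟨t, rfl⟩ := hq1
  have hco : Nat.Coprime (q ^ a) (q - 1) :=
    ((Nat.coprime_self_sub_right hq.out.one_le).mpr (Nat.coprime_one_right _)).pow_left a
  have hat : q ^ a ∣ t := hco.dvd_of_dvd_mul_left hqn
  have h1 : ‖(t : ℤ_[q]) - ((0 : ℕ) : ℤ_[q])‖ ≤ ((q : ℝ)⁻¹) ^ a := by
    rw [Nat.cast_zero, sub_zero, inv_pow, ← zpow_natCast, ← zpow_neg, ← Int.cast_natCast,
      PadicInt.norm_int_le_pow_iff_dvd]
    exact_mod_cast hat
  have hu := FA.PadicZetaResidue.numer_eq (p := q) (t := t) (by omega)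
  have hle : ‖FA.PadicZetaResidue.numer (p := q) t - (1 - 1 / (q : ℂ_[q]))‖ ≤
      q * ((q : ℝ)⁻¹) ^ a := by
    rw [← FA.PadicZetaResidue.numer_zero]
    exact (FA.PadicZetaResidue.norm_numer_sub_le t 0).trans
      (mul_le_mul_of_nonneg_left h1 (Nat.cast_nonneg q))
  have hB : FA.PadicDirichletL.bernChar (1 : DirichletCharacter ℂ_[q] 1) ((q - 1) * t) =
      ((bernoulli ((q - 1) * t) : ℚ) : ℂ_[q]) := by
    rw [FA.PadicDirichletL.bernChar, Fintype.sum_subsingleton _ (0 : ZMod 1)]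
    simp [Polynomial.bernoulli_eval_zero, MulChar.one_apply (isUnit_of_subsingleton (0 : ZMod 1))]
  set m := (q - 1) * t
  set B := ((bernoulli m : ℚ) : ℂ_[q])
  rw [hu, hB] at hle
  set c := (1 : ℂ_[q]) - 1 / (q : ℂ_[q])
  have hsmall : ‖(q : ℂ_[q]) ^ (m - 1)‖ ≤ ((q : ℝ)⁻¹) ^ a := by
    rw [FA.PadicDirichletL.norm_prime_pow]
    exact pow_le_pow_of_le_one (by positivity) FA.PadicDirichletL.inv_prime_lt_one.le (by omega)
  have hden : ‖1 - (q : ℂ_[q]) ^ (m - 1)‖ = 1 := by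
    have hlt : ‖-((q : ℂ_[q]) ^ (m - 1))‖ < ‖(1 : ℂ_[q])‖ := by
      rw [norm_neg, norm_one, FA.PadicDirichletL.norm_prime_pow]
      exact pow_lt_one₀ (by positivity) FA.PadicDirichletL.inv_prime_lt_one (by omega)
    rw [sub_eq_add_neg, IsUltrametricDist.norm_add_eq_max_of_norm_ne_norm hlt.ne',
      max_eq_left hlt.le, norm_one]
  have hc : ‖c‖ ≤ q := by
    refine (sub_eq_add_neg (1 : ℂ_[q]) _ ▸ IsUltrametricDist.norm_add_le_max _ _).trans
      (max_le (by simpa using hq.out.one_le) ?_)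
    rw [norm_neg, norm_div, norm_one, FA.GrossKoblitz.norm_prime_eq, one_div, inv_inv]
  rw [← one_mul ‖B - c‖, ← hden, ← norm_mul,
    show (1 - (q : ℂ_[q]) ^ (m - 1)) * (B - c) =
      ((1 - (q : ℂ_[q]) ^ (m - 1)) * B - c) + c * (q : ℂ_[q]) ^ (m - 1) by ring]
  refine (IsUltrametricDist.norm_add_le_max _ _).trans (max_le hle ?_)
  rw [norm_mul]
  exact mul_le_mul hc hsmall (norm_nonneg _) (Nat.cast_nonneg q)

/-- **The numerators.** -/
theorem dvd_num_sub {n n' a : ℕ} (hev : Even n) (hq1 : q - 1 ∣ n) (hq1' : q - 1 ∣ n')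
    (hqn : q ^ a ∣ n) (hqn' : q ^ a ∣ n') (ha : a + 2 ≤ n) (ha' : a + 2 ≤ n')
    (hden : (bernoulli n).den = (bernoulli n').den) :
    (q : ℤ) ^ a ∣ (bernoulli n).num - (bernoulli n').num := by
  obtain ⟨d, hd⟩ := (dvd_den_iff hq.out (by omega) hev).2 hq1
  set z := (bernoulli n).num - (bernoulli n').num
  have hz : (z : ℂ_[q]) = ((bernoulli n).den : ℂ_[q]) *
      (((bernoulli n : ℚ) : ℂ_[q]) - ((bernoulli n' : ℚ) : ℂ_[q])) := by
    have h1 := congrArg (fun x : ℚ => (x : ℂ_[q])) (Rat.mul_den_eq_num (bernoulli n))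
    have h2 := congrArg (fun x : ℚ => (x : ℂ_[q])) (Rat.mul_den_eq_num (bernoulli n'))
    rw [← hden] at h2
    push_cast at h1 h2
    simp only [z, Int.cast_sub]
    linear_combination h2 - h1
  have hnorm : ‖(z : ℂ_[q])‖ ≤ ((q : ℝ)⁻¹) ^ a := by
    rw [hz, hd, Nat.cast_mul, norm_mul, norm_mul, FA.GrossKoblitz.norm_prime_eq]
    have hb : ‖((bernoulli n : ℚ) : ℂ_[q]) - ((bernoulli n' : ℚ) : ℂ_[q])‖ ≤
        q * ((q : ℝ)⁻¹) ^ a := by
      rw [← sub_sub_sub_cancel_right _ _ (1 - 1 / (q : ℂ_[q])), sub_eq_add_neg]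
      refine (IsUltrametricDist.norm_add_le_max _ _).trans
        (max_le (norm_bernoulli_sub_le hq1 hqn ha) ?_)
      rw [norm_neg]
      exact norm_bernoulli_sub_le hq1' hqn' ha'
    refine (mul_le_mul (mul_le_of_le_one_right (by positivity)
      (IsUltrametricDist.norm_natCast_le_one _ _)) hb (norm_nonneg _) (by positivity)).trans ?_
    rw [inv_mul_cancel_left₀ (Nat.cast_ne_zero.2 hq.out.ne_zero)]
  rw [← map_intCast (algebraMap ℚ_[q] ℂ_[q]) z] at hnorm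
  rw [← Nat.cast_pow]
  refine (Padic.norm_int_le_pow_iff_dvd z a).1 ?_
  rw [zpow_neg, zpow_natCast, ← inv_pow]
  refine le_trans (le_of_eq ?_) hnorm
  exact (PadicComplex.norm_extends' (p := q) (z : ℚ_[q])).symm

end FA.IrregularResidues
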