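import Fermat.Agent.IrregularResidues.Congruence
import Mathlib.NumberTheory.LSeries.PrimesInAP

/-!
# Irregular primes outside a subgroup

`K = N!`, `n = K P` with `P` a large prime for which no `d P + 1`, `d ∣ K`, is prime: then `B_n` has
the denominator of `B_K`, its numerator is constant modulo `m` and divisible by `P`, and the primes
of the quotient are irregular, new and, for a suitable `P` modulo `m`, not all in the subgroup.
-/

set_option autoImplicit false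
set_option linter.unusedSectionVars false
set_option linter.style.haveILetI false

noncomputable section

open Finset
open scoped Nat
open FA.OrderTheta

namespace FA.IrregularResidues

/-- The auxiliary congruences. -/
theorem exists_aux {m : ℕ} (hm : 0 < m) (D : Finset ℕ) (hD : ∀ d ∈ D, 0 < d) :
    ∃ M a : ℕ, 0 < M ∧ M.Coprime m ∧ a.Coprime M ∧
      ∀ d ∈ D, ∃ r, r.Prime ∧ r ∣ M ∧ r ∣ d * a + 1 := by
  induction D using Finset.induction_on with
  | empty => exact ⟨1, 1, one_pos, Nat.coprime_one_left _, Nat.coprime_one_left _, by simp⟩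
  | insert d D _ ih =>
    obtain ⟨M, a, hM, hMm, haM, hr⟩ := ih fun e he => hD e (mem_insert_of_mem he)
    obtain ⟨r, hrlt, hrp⟩ := Nat.exists_infinite_primes (M + d + m + 1)
    haveI : Fact r.Prime := ⟨hrp⟩
    have hd0 : (d : ZMod r) ≠ 0 := fun h => by
      have := Nat.le_of_dvd (hD d (mem_insert_self d D)) ((ZMod.natCast_eq_zero_iff d r).1 h)
      omega
    set b := (-(d : ZMod r)⁻¹).val
    have hb : (b : ZMod r) = -(d : ZMod r)⁻¹ := ZMod.natCast_zmod_val _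
    have hbr : b.Coprime r := by
      refine ((hrp.coprime_iff_not_dvd).2 fun h => ?_).symm
      rw [← ZMod.natCast_eq_zero_iff, hb, neg_eq_zero, inv_eq_zero] at h
      exact hd0 h
    have hco : M.Coprime r := ((hrp.coprime_iff_not_dvd).2 fun h => by
      have := Nat.le_of_dvd hM h
      omega).symm
    obtain ⟨a', ha, hb'⟩ := Nat.chineseRemainder hco a b
    refine ⟨M * r, a', Nat.mul_pos hM hrp.pos,
      hMm.mul_left ((hrp.coprime_iff_not_dvd).2 fun h => ?_),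
      Nat.Coprime.mul_right (ha.gcd_eq.trans haM) (hb'.gcd_eq.trans hbr), fun e he => ?_⟩
    · have := Nat.le_of_dvd hm h
      omega
    · rcases mem_insert.1 he with rfl | he
      · refine ⟨r, hrp, dvd_mul_left r M, ?_⟩
        rw [← ZMod.natCast_eq_zero_iff]
        push_cast
        rw [(ZMod.natCast_eq_natCast_iff' a' b r).2 hb', hb, mul_neg, mul_inv_cancel₀ hd0]
        ring
      · obtain ⟨s, hs, hsM, hsd⟩ := hr e he
        exact ⟨s, hs, hsM.mul_right r,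
          ((((ha.of_dvd hsM).mul_left e).add_right 1).dvd_iff dvd_rfl).2 hsd⟩

/-- The primes `P`. -/
theorem exists_prime (m : ℕ) [NeZero m] {K : ℕ} (B : ℕ) (g : (ZMod m)ˣ) :
    ∃ P : ℕ, P.Prime ∧ B < P ∧ (P : ZMod m) = g ∧ ∀ d, d ∣ K → 0 < K → ¬ (d * P + 1).Prime := by
  obtain ⟨M, a, hM, hMm, haM, hr⟩ :=
    exists_aux (NeZero.pos m) K.divisors fun d hd => Nat.pos_of_mem_divisors hd
  obtain ⟨c, hcM, hcm⟩ := Nat.chineseRemainder hMm a (g : ZMod m).val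
  have hc : c.Coprime (M * m) := Nat.Coprime.mul_right (hcM.gcd_eq.trans haM)
    (hcm.gcd_eq.trans (ZMod.val_coe_unit_coprime g))
  haveI : NeZero (M * m) := ⟨Nat.mul_ne_zero hM.ne' (NeZero.ne m)⟩
  obtain ⟨P, hPgt, hP, hPc⟩ := Nat.forall_exists_prime_gt_and_modEq (B + M) (NeZero.ne (M * m)) hc
  refine ⟨P, hP, by omega, ?_, fun d hd hK hprime => ?_⟩
  · rw [(ZMod.natCast_eq_natCast_iff' P _ m).2
      ((hPc.of_dvd (dvd_mul_left m M)).trans hcm), ZMod.natCast_zmod_val]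
  · obtain ⟨r, hrp, hrM, hrd⟩ := hr d (Nat.mem_divisors.2 ⟨hd, hK.ne'⟩)
    have hrd' : r ∣ d * P + 1 :=
      (((((hPc.of_dvd (dvd_mul_right M m)).trans hcM).of_dvd hrM).mul_left d).add_right 1
        |>.dvd_iff dvd_rfl).2 hrd
    have h1 := (Nat.prime_dvd_prime_iff_eq hrp hprime).1 hrd'
    have h2 := Nat.le_of_dvd hM hrM
    have h3 : P ≤ d * P := Nat.le_mul_of_pos_left P (Nat.pos_of_dvd_of_pos hd hK)
    omega

/-- The primes `ℓ` with `ℓ - 1 ∣ K P`. -/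
theorem sub_one_dvd_iff {K P ℓ : ℕ} (hK : 0 < K) (hP : P.Prime)
    (hno : ∀ d, d ∣ K → 0 < K → ¬ (d * P + 1).Prime) (hℓ : ℓ.Prime) :
    ℓ - 1 ∣ K * P ↔ ℓ - 1 ∣ K := by
  refine ⟨fun h => ?_, fun h => h.mul_right P⟩
  obtain ⟨y, z, hy, hz, hyz⟩ := Nat.dvd_mul.1 h
  rcases (Nat.dvd_prime hP).1 hz with rfl | rfl
  · rw [mul_one] at hyz
    exact hyz ▸ hy
  · exact absurd (by rw [hyz, Nat.sub_add_cancel hℓ.one_le]; exact hℓ) (hno y hy hK)

/-- A product outside a subgroup has a prime outside. -/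
theorem exists_prime_factor {m : ℕ} [NeZero m] (H : Subgroup (ZMod m)ˣ) :
    ∀ (x : ℕ) (h : (ZMod m)ˣ), (h : ZMod m) = x → h ∉ H →
      ∃ ℓ, ℓ.Prime ∧ ℓ ∣ x ∧ ∃ u : (ZMod m)ˣ, (u : ZMod m) = ℓ ∧ u ∉ H := by
  intro x
  induction x using Nat.recOnMul with
  | zero =>
    intro h hh hH
    haveI : Subsingleton (ZMod m) :=
      subsingleton_of_zero_eq_one (isUnit_zero_iff.1 ⟨h, hh.trans Nat.cast_zero⟩)
    exact absurd (by rw [Subsingleton.elim h 1]; exact H.one_mem) hH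
  | one =>
    intro h hh hH
    exact absurd (by rw [show h = 1 from Units.ext (hh.trans Nat.cast_one)]; exact H.one_mem) hH
  | prime ℓ hℓ => exact fun h hh hH => ⟨ℓ, hℓ, dvd_rfl, h, hh, hH⟩
  | mul a b iha ihb =>
    intro h hh hH
    have hab : IsUnit ((a : ZMod m) * b) := ⟨h, hh.trans (Nat.cast_mul a b)⟩
    obtain ⟨u, hu⟩ := (IsUnit.mul_iff.1 hab).1
    obtain ⟨v, hv⟩ := (IsUnit.mul_iff.1 hab).2
    have he : h = u * v := Units.ext (by rw [Units.val_mul, hu, hv, hh, Nat.cast_mul])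
    by_cases huH : u ∈ H
    · obtain ⟨ℓ, hℓ, hd, hu'⟩ := ihb v hv fun hvH => hH (he ▸ mul_mem huH hvH)
      exact ⟨ℓ, hℓ, hd.mul_left a, hu'⟩
    · obtain ⟨ℓ, hℓ, hd, hu'⟩ := iha u hu huH
      exact ⟨ℓ, hℓ, hd.mul_right b, hu'⟩

/-- **The theorem of Metsänkylä.** -/
theorem infinite_outside {m : ℕ} [NeZero m] (H : Subgroup (ZMod m)ˣ) (hH : H ≠ ⊤) :
    {p : ℕ | p.Prime ∧ (∃ k, Even k ∧ 2 ≤ k ∧ k ≤ p - 3 ∧ (p : ℤ) ∣ (bernoulli k).num) ∧
      ∃ u : (ZMod m)ˣ, (u : ZMod m) = p ∧ u ∉ H}.Infinite := by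
  intro hfin
  set F := hfin.toFinset
  set N := m + F.sup id + 4 with hN
  set K := N ! with hKdef
  have hK : 0 < K := Nat.factorial_pos N
  have hdvdK : ∀ d, 0 < d → d ≤ N → d ∣ K := fun d hd hle => Nat.dvd_factorial hd hle
  have hmK : m ∣ K := hdvdK m (NeZero.pos m) (by omega)
  have h4K : 4 ∣ K := hdvdK 4 (by norm_num) (by omega)
  have hK4 : 4 ≤ K := Nat.le_of_dvd hK h4K
  have hprimeK : ∀ ℓ, ℓ.Prime → ℓ ∣ K → ℓ - 1 ∣ K := fun ℓ hℓ h =>
    hdvdK _ (by have := hℓ.two_le; omega) (by have := hℓ.dvd_factorial.1 h; omega)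
  set good := fun P : ℕ => P.Prime ∧ K + 4 < P ∧ ∀ d, d ∣ K → 0 < K → ¬ (d * P + 1).Prime
  have hev : ∀ P, Even (K * P) := fun P =>
    Even.mul_right (even_iff_two_dvd.2 ((by norm_num : 2 ∣ 4).trans h4K)) P
  have hden : ∀ P, good P → ∀ ℓ, ℓ.Prime → (ℓ ∣ (bernoulli (K * P)).den ↔ ℓ - 1 ∣ K) :=
    fun P hP ℓ hℓ => (dvd_den_iff hℓ (Nat.mul_pos hK hP.1.pos) (hev P)).trans
      (sub_one_dvd_iff hK hP.1 hP.2.2 hℓ)
  have hdeneq : ∀ P P', good P → good P' →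
      (bernoulli (K * P)).den = (bernoulli (K * P')).den := fun P P' hP hP' =>
    (Nat.Squarefree.ext_iff (squarefree_den _) (squarefree_den _)).2 fun ℓ hℓ =>
      (hden P hP ℓ hℓ).trans (hden P' hP' ℓ hℓ).symm
  have hneg : ∀ P, good P → (bernoulli (K * P)).num < 0 := fun P hP =>
    Rat.num_neg.2 (bernoulli_neg (Nat.mul_pos hK hP.1.pos) (h4K.mul_right P))
  have hcong : ∀ P P', good P → good P' →
      ((bernoulli (K * P)).num.natAbs : ZMod m) = (bernoulli (K * P')).num.natAbs := by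
    intro P P' hP hP'
    have h1 : (m : ℤ) ∣ (bernoulli (K * P)).num - (bernoulli (K * P')).num := by
      rw [Int.natCast_dvd, Nat.dvd_iff_prime_pow_dvd_dvd]
      intro q k hq hqk
      rcases Nat.eq_zero_or_pos k with rfl | hk
      · simp
      haveI : Fact q.Prime := ⟨hq⟩
      have hqK : q - 1 ∣ K := hprimeK q hq (((dvd_pow_self q hk.ne').trans hqk).trans hmK)
      have hk2 : k + 2 ≤ 2 * K := by
        have := Nat.le_of_dvd hK (hqk.trans hmK)
        have := Nat.lt_pow_self (n := k) hq.one_lt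
        omega
      rw [← Int.natCast_dvd, Nat.cast_pow]
      refine dvd_num_sub (hev P) (hqK.mul_right P) (hqK.mul_right P')
        ((hqk.trans hmK).mul_right P) ((hqk.trans hmK).mul_right P') ?_ ?_ (hdeneq P P' hP hP')
      · exact hk2.trans (by rw [mul_comm 2]; exact Nat.mul_le_mul le_rfl hP.1.two_le)
      · exact hk2.trans (by rw [mul_comm 2]; exact Nat.mul_le_mul le_rfl hP'.1.two_le)
    have h2 := (ZMod.intCast_eq_intCast_iff_dvd_sub _ _ m).2 h1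
    rw [Int.eq_neg_natAbs_of_nonpos (hneg P hP).le,
      Int.eq_neg_natAbs_of_nonpos (hneg P' hP').le] at h2
    rw [Int.cast_neg, Int.cast_neg, Int.cast_natCast, Int.cast_natCast] at h2
    exact (neg_injective h2).symm
  obtain ⟨P₀, hP₀, hP₀B, -, hP₀d⟩ := exists_prime m (K := K) (K + 4) 1
  have hg₀ : good P₀ := ⟨hP₀, hP₀B, hP₀d⟩
  have hunit : (bernoulli (K * P₀)).num.natAbs.Coprime m := Nat.coprime_of_dvd fun q hq hqn hqm =>
    hq.ne_one (Nat.eq_one_of_dvd_coprimes (bernoulli (K * P₀)).reduced hqn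
      ((hden P₀ hg₀ q hq).2 (hprimeK q hq (hqm.trans hmK))))
  set v := ZMod.unitOfCoprime _ hunit
  obtain ⟨h, hh⟩ : ∃ h : (ZMod m)ˣ, h ∉ H := by
    by_contra hall
    push Not at hall
    exact hH (Subgroup.eq_top_iff' H |>.2 hall)
  obtain ⟨P, hP, hPB, hPg, hPd⟩ := exists_prime m (K := K) (K + 4) (v * h⁻¹)
  have hgP : good P := ⟨hP, hPB, hPd⟩
  set n := K * P with hn
  have hn0 : 0 < n := Nat.mul_pos hK hP.pos
  have hn2 : 2 ≤ n := le_trans (by omega : 2 ≤ K) (Nat.le_mul_of_pos_right K hP.pos)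
  haveI : Fact P.Prime := ⟨hP⟩
  have hP1 : ¬ P - 1 ∣ n := fun h1 => by
    have := Nat.le_of_dvd hK ((sub_one_dvd_iff hK hP hPd hP).1 h1)
    omega
  obtain ⟨x, hx⟩ : P ∣ (bernoulli n).num.natAbs := by
    set c := bernoulli n / (n : ℚ) with hc
    have hcd : ¬ P ∣ c.den := pIntegral_bernoulli_div (by omega) hn2 (hev P) hP1
    have e : (bernoulli n).num * (c.den : ℤ) = (n : ℤ) * (c.num * (bernoulli n).den) := by
      have h1 : ((bernoulli n).num : ℚ) * (c.den : ℚ) =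
          (n : ℚ) * ((c.num : ℚ) * ((bernoulli n).den : ℚ)) := by
        rw [← Rat.mul_den_eq_num c, ← Rat.mul_den_eq_num (bernoulli n), hc]
        field_simp
      exact_mod_cast h1
    have h2 : (P : ℤ) ∣ (bernoulli n).num * (c.den : ℤ) :=
      e ▸ (Int.natCast_dvd_natCast.2 (dvd_mul_left P K)).mul_right _
    rcases (Nat.prime_iff_prime_int.mp hP).dvd_or_dvd h2 with h3 | h3
    · exact Int.natCast_dvd.1 h3
    · exact absurd (Int.natCast_dvd_natCast.1 h3) hcd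
  have hxh : (h : ZMod m) = x := by
    have h1 := hcong P P₀ hgP hg₀
    rw [hx, Nat.cast_mul, hPg, ← ZMod.coe_unitOfCoprime _ hunit] at h1
    calc (h : ZMod m) = h * (v⁻¹ : (ZMod m)ˣ) * v := by rw [Units.inv_mul_cancel_right]
      _ = h * (v⁻¹ : (ZMod m)ˣ) * (((v * h⁻¹ : (ZMod m)ˣ) : ZMod m) * x) := by rw [h1]
      _ = x := by
        rw [← mul_assoc, ← Units.val_mul, ← Units.val_mul, show h * v⁻¹ * (v * h⁻¹) = 1 by group,
          Units.val_one, one_mul]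
  obtain ⟨ℓ, hℓ, ⟨z, hz⟩, u, hu, huH⟩ := exists_prime_factor H x h hxh hh
  haveI : Fact ℓ.Prime := ⟨hℓ⟩
  have hℓn : ℓ ∣ (bernoulli n).num.natAbs := hx ▸ (Dvd.intro z hz.symm).mul_left P
  have hℓd : ¬ ℓ ∣ (bernoulli n).den := fun h1 =>
    hℓ.ne_one (Nat.eq_one_of_dvd_coprimes (bernoulli n).reduced hℓn h1)
  have hℓ1 : ¬ ℓ - 1 ∣ n := fun h1 => hℓd ((dvd_den_iff hℓ hn0 (hev P)).2 h1)
  have hℓK : ¬ ℓ ∣ K := fun h1 => hℓ1 ((hprimeK ℓ hℓ h1).mul_right P)
  have hℓ5 : 5 ≤ ℓ := by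
    by_contra hcon
    exact hℓK (hdvdK ℓ hℓ.pos (by omega))
  have hℓev : Even (ℓ - 1) := Nat.even_iff.mpr (by have := hℓ.eq_two_or_odd; omega)
  set k := n % (ℓ - 1) with hk
  have hk0 : k ≠ 0 := fun e => hℓ1 (Nat.dvd_of_mod_eq_zero e)
  have hklt : k < ℓ - 1 := Nat.mod_lt _ (by omega)
  have hkev : Even k := by
    rw [hk, Nat.even_iff, Nat.mod_mod_of_dvd _ hℓev.two_dvd]
    exact Nat.even_iff.1 (hev P)
  have hk2 : k ≤ ℓ - 3 ∧ 2 ≤ k := by
    rw [Nat.even_iff] at hℓev hkev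
    omega
  obtain ⟨t, ht, e⟩ := ratCong_bernoulli_div hℓ5 hk2.2 hn2 hkev (hev P)
    (fun h1 => by have := Nat.le_of_dvd (by omega) h1; omega) (Nat.mod_modEq n (ℓ - 1))
  have hBn : bernoulli n / (n : ℚ) =
      (ℓ : ℚ) * (((-(z : ℤ) : ℤ) : ℚ) * (((bernoulli n).den * K : ℕ) : ℚ)⁻¹) := by
    nth_rewrite 1 [← Rat.num_div_den (bernoulli n)]
    rw [Int.eq_neg_natAbs_of_nonpos (hneg P hgP).le, hx, hz, hn]
    push_cast
    have : (P : ℚ) ≠ 0 := Nat.cast_ne_zero.2 hP.ne_zero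
    field_simp
  have hirr : (ℓ : ℤ) ∣ (bernoulli k).num := RatCong.num_dvd ⟨(k : ℚ) *
    (((-(z : ℤ) : ℤ) : ℚ) * (((bernoulli n).den * K : ℕ) : ℚ)⁻¹ + t), (PIntegral.natCast _).mul
      (((PIntegral.intCast _).mul (PIntegral.inv_natCast fun h1 =>
        (hℓ.dvd_mul.1 h1).elim hℓd hℓK)).add ht), by
    rw [zero_add, ← mul_div_cancel₀ (bernoulli k) (show (k : ℚ) ≠ 0 by exact_mod_cast hk0), e, hBn]
    ring⟩
  have hmem : ℓ ∈ F :=
    hfin.mem_toFinset.mpr ⟨hℓ, ⟨k, hkev, hk2.2, hk2.1, hirr⟩, u, hu, huH⟩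
  have hle : ℓ ≤ N := le_trans (Finset.le_sup (f := id) hmem) (by omega)
  exact hℓK (hdvdK ℓ hℓ.pos hle)

end FA.IrregularResidues
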